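/-
Rational points of X0(15) in terms of the Hauptmoduln of levels 3 and 5.
-/
import Mathlib
import Fermat.Agent.Descent15.Points

set_option autoImplicit false

namespace Fermat.Agent.ThreeFive

/-- The nodes of the plane model are irrational. -/
theorem node_ne_zero (w : ℚ) : w ^ 4 + 2 * w ^ 3 - 10 * w ^ 2 + 4 * w + 4 ≠ 0 := by
  intro h
  rcases eq_or_ne w 1 with rfl | hw
  · norm_num at h
  · have hw' : w - 1 ≠ 0 := sub_ne_zero.mpr hw
    have h5 : IsSquare (5 : ℚ) := by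
      refine ⟨(w ^ 2 - w - 1) / (w - 1) + 2, ?_⟩
      field_simp
      linear_combination -h
    have h5n : IsSquare (5 : ℕ) := by exact_mod_cast Rat.isSquare_natCast_iff.mp h5
    exact (by norm_num : Nat.Prime 5).not_isSquare h5n

/-- Two 2-isogenies carry `y² = x(x+9)(x-16)` to `v² = u³ - 7u² + 16u`. -/
theorem points_15a1_of (hD : ∀ u v : ℚ, v ^ 2 = u ^ 3 - 7 * u ^ 2 + 16 * u → u = 0 ∨ u = 4)
    {x y : ℚ} (h : y ^ 2 = x * (x + 9) * (x - 16)) :
    x = 0 ∨ x = -9 ∨ x = 16 ∨ x = 36 ∨ x = -4 := by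
  rcases eq_or_ne y 0 with rfl | hy
  · have : x * (x + 9) * (x - 16) = 0 := by linear_combination -h
    rcases mul_eq_zero.mp this with h1 | h1
    · rcases mul_eq_zero.mp h1 with h2 | h2
      · exact Or.inl h2
      · exact Or.inr (Or.inl (by linarith))
    · exact Or.inr (Or.inr (Or.inl (by linarith)))
  have hX : x + 9 ≠ 0 := by
    intro h0; rw [h0] at h; simp at h; exact hy h
  obtain ⟨U, hUdef⟩ : ∃ U, U = y ^ 2 / (4 * (x + 9) ^ 2) + 1 := ⟨_, rfl⟩
  obtain ⟨V, hVdef⟩ : ∃ V, V = y * (225 - (x + 9) ^ 2) / (8 * (x + 9) ^ 2) := ⟨_, rfl⟩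
  have hU1 : 1 < U := by
    have : 0 < y ^ 2 / (4 * (x + 9) ^ 2) := by positivity
    linarith
  have hU : U ≠ 0 := by linarith
  have h2 : V ^ 2 = U * (U - 1) * (U + 15) := by
    subst hUdef hVdef
    linear_combination (norm := (field_simp; ring))
      -(y ^ 2 * (y ^ 2 + (x + 9) * ((x + 9) ^ 2 + 34 * (x + 9) + 225)) /
        (64 * (x + 9) ^ 6)) * h
  have h3 : (V * (-15 - U ^ 2) / (8 * U ^ 2)) ^ 2 =
      (V ^ 2 / (4 * U ^ 2)) ^ 3 - 7 * (V ^ 2 / (4 * U ^ 2)) ^ 2 + 16 * (V ^ 2 / (4 * U ^ 2)) := by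
    linear_combination (norm := (field_simp; ring))
      -(V ^ 2 * (V ^ 2 + U * (U ^ 2 - 14 * U - 15)) / (64 * U ^ 6)) * h2
  have hU' : U = 5 := by
    rcases hD _ _ h3 with h4 | h4
    · rw [div_eq_iff (by positivity), zero_mul, h2] at h4
      have : 0 < U * (U - 1) * (U + 15) :=
        mul_pos (mul_pos (by linarith) (by linarith)) (by linarith)
      linarith
    · rw [div_eq_iff (by positivity), h2] at h4
      have h5 : (U - 5) * (U + 3) = 0 := by
        have h6 : U * ((U - 5) * (U + 3)) = 0 := by linear_combination h4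
        exact (mul_eq_zero.mp h6).resolve_left hU
      rcases mul_eq_zero.mp h5 with h6 | h6 <;> linarith
  have hy2 : y ^ 2 = 16 * (x + 9) ^ 2 := by
    rw [hUdef] at hU'
    field_simp at hU'
    linear_combination hU'
  have h7 : (x + 9) * ((x - 36) * (x + 4)) = 0 := by linear_combination hy2 - h
  rcases mul_eq_zero.mp ((mul_eq_zero.mp h7).resolve_left hX) with h8 | h8
  · exact Or.inr (Or.inr (Or.inr (Or.inl (by linarith))))
  · exact Or.inr (Or.inr (Or.inr (Or.inr (by linarith))))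

/-- Rational points of 15a1. -/
theorem points_15a1 {x y : ℚ} (h : y ^ 2 = x * (x + 9) * (x - 16)) :
    x = 0 ∨ x = -9 ∨ x = 16 ∨ x = 36 ∨ x = -4 :=
  points_15a1_of Fermat.Agent.Descent15.rational_points_short h

/-- Noncuspidal rational points of X0(15), given the rational points of 15a1. -/
theorem hauptmodul5_values
    {t s : ℚ} (hs : s ≠ 0) (ht3 : t + 3 ≠ 0)
    (h : (t + 27) * (t + 3) ^ 3 * s = (s ^ 2 + 10 * s + 5) ^ 3 * t) :
    s = -10 ∨ s = -40 ∨ s = -25 / 2 ∨ s = -25 / 8 := by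
  obtain ⟨w, hw⟩ : ∃ w, w * (t + 3) = s ^ 2 + 10 * s + 5 :=
    ⟨(s ^ 2 + 10 * s + 5) / (t + 3), div_mul_cancel₀ _ ht3⟩
  have h1 : (t + 27) * s = w ^ 3 * t := by
    apply mul_left_cancel₀ (pow_ne_zero 3 ht3)
    rw [← hw] at h
    linear_combination h
  have hC : (s ^ 2 + 10 * s + 5) * (w ^ 3 - s) = 3 * w ^ 4 + 24 * s * w := by
    linear_combination (-(w ^ 3 - s)) * hw - w * h1
  set N : ℚ := w ^ 4 + 2 * w ^ 3 - 10 * w ^ 2 + 4 * w + 4 with hN
  have hN0 : N ≠ 0 := node_ne_zero w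
  set b : ℚ := w ^ 2 - w - 1 with hb
  set a : ℚ := w ^ 3 + 3 * w ^ 2 - 6 * w - 3 with ha
  have hQ : b - s * (w - 1) ≠ 0 := by
    intro hQ
    apply hN0
    rw [hb] at hQ
    have : N ^ 2 = 0 := by
      rw [hN]
      linear_combination (w - 1) ^ 3 * hC + (s ^ 2 * (w - 1) ^ 2 + s * (w - 1) * (w ^ 2 - w - 1)
        + (w ^ 2 - w - 1) ^ 2 - (w ^ 3 - 10) * (w - 1) * (s * (w - 1) + (w ^ 2 - w - 1))
        - (10 * w ^ 3 - 5 - 24 * w) * (w - 1) ^ 2) * (-hQ)
    exact pow_eq_zero_iff (by norm_num) |>.mp this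
  obtain ⟨z, hz⟩ : ∃ z, z * (b - s * (w - 1)) = a - s :=
    ⟨(a - s) / (b - s * (w - 1)), div_mul_cancel₀ _ hQ⟩
  have hs' : s * (z * (w - 1) - 1) = z * b - a := by linear_combination -hz
  have hden : z * (w - 1) - 1 ≠ 0 := by
    intro hd
    rw [hd, mul_zero] at hs'
    apply hN0
    rw [hN]
    rw [hb, ha] at hs'
    linear_combination (w - 1) * hs' + (w ^ 2 - w - 1) * hd
  have hK : z * w ^ 2 + (z - 2 * z ^ 2) * w + z ^ 3 - 4 * z ^ 2 + 2 * z + 3 = 0 := by
    apply mul_left_cancel₀ (pow_ne_zero 2 hN0)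
    rw [mul_zero, hN]
    rw [hb, ha] at hs'
    linear_combination (z * (w - 1) - 1) ^ 3 * hC +
      ((s * (z * (w - 1) - 1)) ^ 2
        + s * (z * (w - 1) - 1) * (z * (w ^ 2 - w - 1) - (w ^ 3 + 3 * w ^ 2 - 6 * w - 3))
        + (z * (w ^ 2 - w - 1) - (w ^ 3 + 3 * w ^ 2 - 6 * w - 3)) ^ 2
        - (w ^ 3 - 10) * (z * (w - 1) - 1) * (s * (z * (w - 1) - 1)
          + (z * (w ^ 2 - w - 1) - (w ^ 3 + 3 * w ^ 2 - 6 * w - 3)))
        - (10 * w ^ 3 - 5 - 24 * w) * (z * (w - 1) - 1) ^ 2) * hs'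
  rw [hb, ha] at hs'
  have hY : (12 * (z * (2 * w + 1 - 2 * z))) ^ 2 = 12 * z * (12 * z + 9) * (12 * z - 16) := by
    linear_combination 576 * z * hK
  rcases points_15a1 hY with hx | hx | hx | hx | hx
  · obtain rfl : z = 0 := by linarith
    norm_num at hK
  · obtain rfl : z = -3 / 4 := by linarith
    have : (4 * w + 5) ^ 2 = 0 := by linear_combination (-64 / 3) * hK
    obtain rfl : w = -5 / 4 := by
      have := pow_eq_zero_iff (n := 2) (by norm_num) |>.mp this
      linarith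
    exact Or.inr (Or.inr (Or.inl (by linarith)))
  · obtain rfl : z = 4 / 3 := by linarith
    have : (6 * w - 5) ^ 2 = 0 := by linear_combination 27 * hK
    obtain rfl : w = 5 / 6 := by
      have := pow_eq_zero_iff (n := 2) (by norm_num) |>.mp this
      linarith
    exact Or.inr (Or.inr (Or.inr (by linarith)))
  · obtain rfl : z = 3 := by linarith
    have : w * (w - 5) = 0 := by linear_combination (1 / 3) * hK
    rcases mul_eq_zero.mp this with h2 | h2
    · subst h2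
      exact absurd (by linarith : s = 0) hs
    · obtain rfl : w = 5 := by linarith
      exact Or.inl (by linarith)
  · obtain rfl : z = -1 / 3 := by linarith
    have : (3 * w - 5) * (3 * w + 10) = 0 := by linear_combination -27 * hK
    rcases mul_eq_zero.mp this with h2 | h2
    · obtain rfl : w = 5 / 3 := by linarith
      exact absurd (by linarith : s = 0) hs
    · obtain rfl : w = -10 / 3 := by linarith
      exact Or.inr (Or.inl (by linarith))

end Fermat.Agent.ThreeFive
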