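/-
Hauptmoduln of levels 3 and 5 from the x-coordinates of a point of order 3 resp. 5
on a short curve Y^2 = X^3 - 3 c X - 2 d.
-/
import Mathlib

set_option autoImplicit false

namespace Fermat.Agent.ThreeFive

variable {F : Type*} [Field F]

theorem hauptmodul3 [CharZero F] {c d X : F} (hc : c ≠ 0) (hΔ : c ^ 3 - d ^ 2 ≠ 0)
    (hX : X ^ 4 - 6 * c * X ^ 2 - 8 * d * X - 3 * c ^ 2 = 0) :
    ∃ t : F, t + 3 ≠ 0 ∧
      1728 * c ^ 3 * t = (c ^ 3 - d ^ 2) * ((t + 27) * (t + 3) ^ 3) := by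
  have hX0 : X ≠ 0 := by
    rintro rfl
    have : c ^ 2 = 0 := by linear_combination (-1 / 3 : F) * hX
    exact hc (pow_eq_zero_iff (by norm_num) |>.mp this)
  have hkey : 64 * X ^ 2 * (c ^ 3 - d ^ 2) = (c - X ^ 2) ^ 3 * (X ^ 2 - 9 * c) := by
    linear_combination (X ^ 4 - 6 * c * X ^ 2 - 3 * c ^ 2 + 8 * d * X) * hX
  have hr : c - X ^ 2 ≠ 0 := by
    intro h
    rw [h] at hkey
    simp [hX0, hΔ] at hkey
  refine ⟨3 * (X ^ 2 - 9 * c) / (c - X ^ 2), ?_, ?_⟩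
  · have : 3 * (X ^ 2 - 9 * c) / (c - X ^ 2) + 3 = -24 * c / (c - X ^ 2) := by
      field_simp; ring
    rw [this]
    exact div_ne_zero (mul_ne_zero (by norm_num) hc) hr
  · have hden : (c ^ 3 - d ^ 2) = (c - X ^ 2) ^ 3 * (X ^ 2 - 9 * c) / (64 * X ^ 2) := by
      rw [eq_div_iff (mul_ne_zero (by norm_num) (pow_ne_zero 2 hX0))]
      linear_combination hkey
    rw [hden]
    field_simp
    ring

/-- The quartic satisfied by the abscissa of a point of order 3. -/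
theorem quartic_of_flex {c d X Y L : F} (hY : Y ^ 2 = X ^ 3 - 3 * c * X - 2 * d)
    (hL : 2 * Y * L = 3 * (X ^ 2 - c)) (hflex : L ^ 2 = 3 * X) :
    3 * (X ^ 4 - 6 * c * X ^ 2 - 8 * d * X - 3 * c ^ 2) = 0 := by
  linear_combination (-12 * X) * hY - 4 * Y ^ 2 * hflex +
    (2 * Y * L + 3 * (X ^ 2 - c)) * hL

/-- Tate normal form parameters of a point of order 5. -/
theorem exists_tate_param [CharZero F] {c d X Y L D : F}
    (hY : Y ^ 2 = X ^ 3 - 3 * c * X - 2 * d)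
    (hL : 2 * Y * L = 3 * (X ^ 2 - c)) (hD : D = 3 * X - L ^ 2) (hY0 : Y ≠ 0) (hD0 : D ≠ 0)
    (h5 : (-L + 2 * Y / D) ^ 2 = 3 * X - 2 * D) :
    ∃ u b : F, u ≠ 0 ∧ b ≠ 0 ∧ D = -(b * u ^ 2) ∧
      X = u ^ 2 * (1 - 6 * b + b ^ 2) / 12 ∧
      c = u ^ 4 * (b ^ 4 - 12 * b ^ 3 + 14 * b ^ 2 + 12 * b + 1) / 144 ∧
      d = -(u ^ 6 * ((b ^ 2 + 1) * (b ^ 4 - 18 * b ^ 3 + 74 * b ^ 2 + 18 * b + 1))) / 1728 := by
  set u : F := 2 * Y / D with hu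
  have hu0 : u ≠ 0 := div_ne_zero (mul_ne_zero two_ne_zero hY0) hD0
  have h2l : u ^ 2 - 2 * u * L = -D := by
    rw [hD] at h5 ⊢
    linear_combination h5
  set b : F := -D / u ^ 2 with hb
  have hDb : D = -(b * u ^ 2) := by rw [hb]; field_simp
  have hYb : Y = -(b * u ^ 3) / 2 := by
    have : u * D = 2 * Y := by rw [hu]; field_simp
    linear_combination (-1 / 2 : F) * this + (u / 2) * hDb
  have hLb : L = u * (1 - b) / 2 := by
    apply mul_left_cancel₀ (mul_ne_zero two_ne_zero hu0)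
    linear_combination -h2l + hDb
  have hXb : X = u ^ 2 * (1 - 6 * b + b ^ 2) / 12 := by
    rw [hDb, hLb] at hD
    linear_combination (-1 / 3 : F) * hD
  have hcb : c = u ^ 4 * (b ^ 4 - 12 * b ^ 3 + 14 * b ^ 2 + 12 * b + 1) / 144 := by
    rw [hYb, hLb, hXb] at hL
    linear_combination (1 / 3 : F) * hL
  refine ⟨u, b, hu0, ?_, hDb, hXb, hcb, ?_⟩
  · intro h
    rw [h] at hDb
    simp [hD0] at hDb
  · rw [hYb, hXb, hcb] at hY
    linear_combination (1 / 2 : F) * hY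

theorem hauptmodul5 [CharZero F] {c d X Y L D : F}
    (hY : Y ^ 2 = X ^ 3 - 3 * c * X - 2 * d)
    (hL : 2 * Y * L = 3 * (X ^ 2 - c)) (hD : D = 3 * X - L ^ 2) (hY0 : Y ≠ 0) (hD0 : D ≠ 0)
    (h5 : (-L + 2 * Y / D) ^ 2 = 3 * X - 2 * D) :
    1728 * c ^ 3 * ((3 * (2 * X - D) ^ 2 - 12 * c - 10 * D ^ 2) / D ^ 2) =
      (c ^ 3 - d ^ 2) *
        (((3 * (2 * X - D) ^ 2 - 12 * c - 10 * D ^ 2) / D ^ 2) ^ 2 +
          10 * ((3 * (2 * X - D) ^ 2 - 12 * c - 10 * D ^ 2) / D ^ 2) + 5) ^ 3 := by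
  obtain ⟨u, b, hu0, hb0, hDb, hXb, hcb, hdb⟩ := exists_tate_param hY hL hD hY0 hD0 h5
  have hs : (3 * (2 * X - D) ^ 2 - 12 * c - 10 * D ^ 2) / D ^ 2 = (b ^ 2 - 11 * b - 1) / b := by
    rw [hXb, hcb, hDb]; field_simp; ring
  have hs' : ((b ^ 2 - 11 * b - 1) / b) ^ 2 + 10 * ((b ^ 2 - 11 * b - 1) / b) + 5 =
      (b ^ 4 - 12 * b ^ 3 + 14 * b ^ 2 + 12 * b + 1) / b ^ 2 := by
    field_simp; ring
  rw [hs, hs', hcb, hdb]
  field_simp
  ring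

end Fermat.Agent.ThreeFive
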