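/-
Points of order 3 and 5 in short Weierstrass coordinates.
-/
import Mathlib
import Fermat.Agent.ThreeFive.Hauptmodul

set_option autoImplicit false

open WeierstrassCurve

namespace Fermat.Agent.ThreeFive

variable {K : Type*} [Field K] (V : WeierstrassCurve.Affine K)

/-- Abscissa in the short model `Y^2 = X^3 - 3 cS X - 2 dS`. -/
def shortX (x : K) : K := 36 * x + 3 * V.b₂

/-- Ordinate in the short model. -/
def shortY (x y : K) : K := 108 * (2 * y + V.a₁ * x + V.a₃)

/-- Slope in the short model. -/
def shortL (l : K) : K := 3 * (2 * l + V.a₁)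

/-- First coefficient of the short model. -/
def cS : K := 9 * V.c₄

/-- Second coefficient of the short model. -/
def dS : K := 27 * V.c₆

theorem cS_dS_rel : cS V ^ 3 - dS V ^ 2 = 729 * (1728 * V.Δ) := by
  rw [c_relation, cS, dS]; ring

theorem short_equation {x y : K} (h : V.Equation x y) :
    shortY V x y ^ 2 = shortX V x ^ 3 - 3 * cS V * shortX V x - 2 * dS V := by
  rw [Affine.equation_iff] at h
  simp only [shortX, shortY, cS, dS, c₄, c₆, b₂, b₄, b₆]
  linear_combination 46656 * h

theorem shortX_injective [CharZero K] : Function.Injective (shortX V) := fun a b h => by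
  simp only [shortX] at h
  have h36 : (36 : K) * (a - b) = 0 := by linear_combination h
  exact sub_eq_zero.mp ((mul_eq_zero.mp h36).resolve_left (by norm_num))

theorem shortY_ne_zero [CharZero K] {x y : K} (h : y ≠ V.negY x y) : shortY V x y ≠ 0 := by
  intro h0
  apply h
  simp only [shortY, mul_eq_zero] at h0
  rcases h0 with h0 | h0
  · norm_num at h0
  · rw [Affine.negY]; linear_combination h0

theorem shortX_addX (x₁ x₂ l : K) :
    shortX V (V.addX x₁ x₂ l) = shortL V l ^ 2 - shortX V x₁ - shortX V x₂ := by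
  simp only [shortX, shortL, Affine.addX, b₂]; ring

theorem shortY_addY (x₁ x₂ y₁ l : K) :
    shortY V (V.addX x₁ x₂ l) (V.addY x₁ x₂ y₁ l) =
      -(shortY V x₁ y₁ + shortL V l * (shortX V (V.addX x₁ x₂ l) - shortX V x₁)) := by
  simp only [shortX, shortY, shortL, Affine.addY, Affine.negAddY, Affine.negY]; ring

variable [DecidableEq K]

theorem shortL_tangent {x y : K} (h : y ≠ V.negY x y) :
    2 * shortY V x y * shortL V (V.slope x x y y) = 3 * (shortX V x ^ 2 - cS V) := by
  have hd : y - V.negY x y ≠ 0 := sub_ne_zero.mpr h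
  have hl : V.slope x x y y * (y - V.negY x y) =
      3 * x ^ 2 + 2 * V.a₂ * x + V.a₄ - V.a₁ * y := by
    rw [Affine.slope_of_Y_ne rfl h, div_mul_cancel₀ _ hd]
  rw [Affine.negY] at hl
  simp only [shortX, shortY, shortL, cS, c₄, b₂, b₄]
  linear_combination 1296 * hl

theorem shortL_chord [CharZero K] {x₁ x₂ y₁ y₂ : K} (h : x₁ ≠ x₂) :
    shortL V (V.slope x₁ x₂ y₁ y₂) =
      (shortY V x₂ y₂ - shortY V x₁ y₁) / (shortX V x₂ - shortX V x₁) := by
  have hd : shortX V x₂ - shortX V x₁ ≠ 0 :=
    sub_ne_zero.mpr fun e => h ((shortX_injective V) e).symm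
  have hl : V.slope x₁ x₂ y₁ y₂ * (x₁ - x₂) = y₁ - y₂ := by
    rw [Affine.slope_of_X_ne h, div_mul_cancel₀ _ (sub_ne_zero.mpr h)]
  rw [eq_div_iff hd]
  simp only [shortX, shortY, shortL]
  linear_combination -216 * hl

/-- Data of a point of order 3. -/
theorem data_of_three [CharZero K] {x y : K} {h : V.Nonsingular x y}
    (h3 : (3 : ℤ) • (Affine.Point.some x y h) = 0) :
    shortX V x ^ 4 - 6 * cS V * shortX V x ^ 2 - 8 * dS V * shortX V x - 3 * cS V ^ 2 = 0 := by
  set P := Affine.Point.some x y h with hP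
  have hPP : P + P = -P := by
    apply eq_neg_of_add_eq_zero_left
    rw [← h3]; module
  have hy : y ≠ V.negY x y := by
    intro e
    rw [hP, Affine.Point.add_self_of_Y_eq e, eq_comm, neg_eq_zero] at hPP
    exact Affine.Point.some_ne_zero h hPP
  rw [hP, Affine.Point.add_self_of_Y_ne hy, Affine.Point.neg_some,
    Affine.Point.some.injEq] at hPP
  have hflex : shortL V (V.slope x x y y) ^ 2 = 3 * shortX V x := by
    have e := shortX_addX V x x (V.slope x x y y)
    rw [hPP.1] at e
    linear_combination -e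
  have := quartic_of_flex (short_equation V h.1) (shortL_tangent V hy) hflex
  exact (mul_eq_zero.mp this).resolve_left (by norm_num)

/-- Data of a point of order 5: coordinates of `2P` and the order condition. -/
theorem data_of_five [CharZero K] {x y : K} {h : V.Nonsingular x y}
    (h5 : (5 : ℤ) • (Affine.Point.some x y h) = 0) :
    ∃ (x₂ y₂ : K) (h₂ : V.Nonsingular x₂ y₂) (L : K),
      (2 : ℤ) • (Affine.Point.some x y h) = Affine.Point.some x₂ y₂ h₂ ∧
      shortY V x y ≠ 0 ∧ shortX V x - shortX V x₂ ≠ 0 ∧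
      2 * shortY V x y * L = 3 * (shortX V x ^ 2 - cS V) ∧
      shortX V x - shortX V x₂ = 3 * shortX V x - L ^ 2 ∧
      (-L + 2 * shortY V x y / (shortX V x - shortX V x₂)) ^ 2 =
        3 * shortX V x - 2 * (shortX V x - shortX V x₂) := by
  set P := Affine.Point.some x y h with hP
  have hP0 : P ≠ 0 := Affine.Point.some_ne_zero h
  have h2ne : (2 : ℤ) • P ≠ 0 := fun e => hP0 <| by
    calc P = (5 : ℤ) • P - (2 : ℤ) • ((2 : ℤ) • P) := by module
      _ = 0 := by rw [h5, e, smul_zero, sub_zero]
  have h2P : (2 : ℤ) • P = P + P := by module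
  have hy : y ≠ V.negY x y := by
    intro e
    rw [h2P, hP, Affine.Point.add_self_of_Y_eq e] at h2ne
    exact h2ne rfl
  set l := V.slope x x y y with hl
  set x₂ := V.addX x x l with hx₂
  set y₂ := V.addY x x y l with hy₂
  have h₂ : V.Nonsingular x₂ y₂ := Affine.nonsingular_add h h fun hxy => hy hxy.2
  have h2some : (2 : ℤ) • P = Affine.Point.some x₂ y₂ h₂ := by
    rw [h2P, hP, Affine.Point.add_self_of_Y_ne hy]
  have hxx : x ≠ x₂ := by
    intro e
    rcases Affine.Y_eq_of_X_eq h.1 h₂.1 e with e' | e'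
    · have : (2 : ℤ) • P = P := by
        rw [h2some, hP, Affine.Point.some.injEq]; exact ⟨e.symm, e'.symm⟩
      exact hP0 <| by
        calc P = (2 : ℤ) • P - P := by module
          _ = 0 := by rw [this, sub_self]
    · have : P = -((2 : ℤ) • P) := by
        rw [h2some, hP, Affine.Point.neg_some, Affine.Point.some.injEq]; exact ⟨e, e'⟩
      have h3 : (3 : ℤ) • P = 0 := by
        calc (3 : ℤ) • P = P + (2 : ℤ) • P := by module
          _ = 0 := by
            nth_rw 1 [this]
            exact neg_add_cancel _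
      exact hP0 <| by
        calc P = (2 : ℤ) • ((3 : ℤ) • P) - (5 : ℤ) • P := by module
          _ = 0 := by rw [h3, h5, smul_zero, sub_zero]
  have h3P : Affine.Point.some x y h + Affine.Point.some x₂ y₂ h₂ =
      -Affine.Point.some x₂ y₂ h₂ := by
    rw [← h2some, ← hP]
    apply eq_neg_of_add_eq_zero_left
    rw [← h5]; module
  rw [Affine.Point.add_of_X_ne hxx, Affine.Point.neg_some, Affine.Point.some.injEq] at h3P
  have hX2 : shortX V x₂ = shortL V l ^ 2 - shortX V x - shortX V x := shortX_addX V x x l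
  have hD : shortX V x - shortX V x₂ ≠ 0 :=
    sub_ne_zero.mpr fun e => hxx (shortX_injective V e)
  have hm : shortL V (V.slope x x₂ y y₂) =
      -shortL V l + 2 * shortY V x y / (shortX V x - shortX V x₂) := by
    rw [shortL_chord V hxx]
    have hY2 : shortY V x₂ y₂ =
        -(shortY V x y + shortL V l * (shortX V x₂ - shortX V x)) := shortY_addY V x x y l
    have hD' : shortX V x₂ - shortX V x ≠ 0 := by
      rw [← neg_sub]; exact neg_ne_zero.mpr hD
    rw [hY2, ← neg_sub (shortX V x₂) (shortX V x), div_neg]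
    field_simp
    ring
  refine ⟨x₂, y₂, h₂, shortL V l, h2some, shortY_ne_zero V hy, hD, shortL_tangent V hy, ?_, ?_⟩
  · linear_combination -hX2
  · have e := shortX_addX V x x₂ (V.slope x x₂ y y₂)
    rw [h3P.1, hm] at e
    linear_combination -e

end Fermat.Agent.ThreeFive
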