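/-
Existence of, and a bound on, torsion points of order 3 and 5.
-/
import Mathlib
import Fermat.Agent.ThreeFive.Points

set_option autoImplicit false

open WeierstrassCurve Polynomial

namespace Fermat.Agent.ThreeFive

variable {K : Type*} [Field K] (V : WeierstrassCurve.Affine K)

/-- Short coordinates of a point. -/
def shortPair : V.Point → Option (K × K)
  | .zero => none
  | .some x y _ => Option.some (shortX V x, shortY V x y)

theorem shortPair_injective [CharZero K] : Function.Injective (shortPair V) := by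
  rintro (_ | ⟨x, y, h⟩) (_ | ⟨x', y', h'⟩) e <;>
    simp only [shortPair, Option.some.injEq, Prod.mk.injEq, reduceCtorEq] at e
  · rfl
  · obtain ⟨e₁, e₂⟩ := e
    obtain rfl := shortX_injective V e₁
    simp only [shortY] at e₂
    obtain rfl : y = y' := by
      have h' : (216 : K) * (y - y') = 0 := by linear_combination e₂
      exact sub_eq_zero.mp ((mul_eq_zero.mp h').resolve_left (by norm_num))
    rfl

/-- The degree 12 polynomial vanishing at the abscissae of the points of order 5. -/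
noncomputable def quinPoly : K[X] :=
  (C 4 * (X ^ 3 - C (3 * cS V) * X - C (2 * dS V))) ^ 4
    - C 6 * (X ^ 2 - C (cS V))
      * (C 3 * (X ^ 4 - C (6 * cS V) * X ^ 2 - C (8 * dS V) * X - C (3 * cS V ^ 2)))
      * (C 4 * (X ^ 3 - C (3 * cS V) * X - C (2 * dS V))) ^ 2
    + (C 3 * (X ^ 4 - C (6 * cS V) * X ^ 2 - C (8 * dS V) * X - C (3 * cS V ^ 2))) ^ 3

/-- The quartic vanishing at the abscissae of the points of order 3. -/
noncomputable def triPoly : K[X] :=
  X ^ 4 - C (6 * cS V) * X ^ 2 - C (8 * dS V) * X - C (3 * cS V ^ 2)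

theorem triPoly_natDegree : (triPoly V).natDegree ≤ 4 := by
  unfold triPoly; compute_degree

theorem quinPoly_natDegree : (quinPoly V).natDegree ≤ 12 := by
  unfold quinPoly; compute_degree

theorem triPoly_ne_zero : triPoly V ≠ 0 := by
  intro h
  have : (triPoly V).coeff 4 = 1 := by unfold triPoly; compute_degree!
  rw [h, coeff_zero] at this
  exact zero_ne_one this

theorem quinPoly_ne_zero [CharZero K] : quinPoly V ≠ 0 := by
  intro h
  have : (quinPoly V).coeff 12 = -5 := by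
    unfold quinPoly
    compute_degree!
  rw [h, coeff_zero] at this
  norm_num at this

variable [DecidableEq K]

theorem root_of_three [CharZero K] {x y : K} {h : V.Nonsingular x y}
    (h3 : (3 : ℤ) • (Affine.Point.some x y h) = 0) : (triPoly V).eval (shortX V x) = 0 := by
  simp only [triPoly, eval_sub, eval_mul, eval_pow, eval_X, eval_C]
  exact data_of_three V h3

theorem root_of_five [CharZero K] {x y : K} {h : V.Nonsingular x y}
    (h5 : (5 : ℤ) • (Affine.Point.some x y h) = 0) : (quinPoly V).eval (shortX V x) = 0 := by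
  obtain ⟨x₂, y₂, h₂, L, -, hY0, hD0, hL, hD, hord⟩ := data_of_five V h5
  have hf := short_equation V h.1
  simp only [quinPoly, eval_sub, eval_add, eval_mul, eval_pow, eval_X, eval_C]
  generalize shortX V x = X₀ at *
  generalize shortY V x y = Y₀ at *
  generalize X₀ - shortX V x₂ = D at *
  generalize cS V = c at *
  generalize dS V = d at *
  have e1 : 4 * Y₀ ^ 2 - 6 * (X₀ ^ 2 - c) * D + D ^ 3 = 0 := by
    have e2 : (-L * D + 2 * Y₀) ^ 2 = (3 * X₀ - 2 * D) * D ^ 2 := by
      rw [← hord]; field_simp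
    linear_combination e2 + 2 * D * hL - D ^ 2 * hD
  have e3 : 3 * (X₀ ^ 4 - 6 * c * X₀ ^ 2 - 8 * d * X₀ - 3 * c ^ 2) = 4 * Y₀ ^ 2 * D := by
    linear_combination (-12 * X₀) * hf - 4 * Y₀ ^ 2 * hD +
      (2 * Y₀ * L + 3 * (X₀ ^ 2 - c)) * hL
  rw [← hf, e3]
  linear_combination (4 * Y₀ ^ 2) ^ 3 * e1

theorem ncard_le_of_root [CharZero K] {g : K[X]} (hg : g ≠ 0) {N : ℕ} (hN : g.natDegree ≤ N)
    {S : Set V.Point}
    (hS : ∀ (x y : K) (h : V.Nonsingular x y),
      Affine.Point.some x y h ∈ S → g.eval (shortX V x) = 0) :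
    S.Finite ∧ S.ncard ≤ 2 * N + 1 := by
  classical
  set f : K → K[X] := fun a => X ^ 2 - C (a ^ 3 - 3 * cS V * a - 2 * dS V)
  set T : Finset (Option (K × K)) := insert none
    ((g.roots.toFinset.biUnion fun a => (f a).roots.toFinset.image fun b => (a, b)).image some)
  have hmem : ∀ P ∈ S, shortPair V P ∈ T := by
    rintro (_ | ⟨x, y, h⟩) hP
    · exact Finset.mem_insert_self _ _
    · apply Finset.mem_insert_of_mem
      refine Finset.mem_image_of_mem _ (Finset.mem_biUnion.mpr ⟨shortX V x, ?_, ?_⟩)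
      · rw [Multiset.mem_toFinset, mem_roots hg]
        exact hS x y h hP
      · refine Finset.mem_image_of_mem _ ?_
        rw [Multiset.mem_toFinset, mem_roots (X_pow_sub_C_ne_zero (by norm_num) _), IsRoot.def]
        simp only [eval_sub, eval_pow, eval_X, eval_C]
        linear_combination short_equation V h.1
  have hsub : shortPair V '' S ⊆ (T : Set (Option (K × K))) := by
    rintro _ ⟨P, hP, rfl⟩; exact hmem P hP
  have hfin : S.Finite :=
    Set.Finite.of_finite_image (T.finite_toSet.subset hsub) (shortPair_injective V).injOn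
  refine ⟨hfin, ?_⟩
  calc S.ncard = (shortPair V '' S).ncard :=
        (Set.ncard_image_of_injective S (shortPair_injective V)).symm
    _ ≤ T.card := (Set.ncard_le_ncard hsub T.finite_toSet).trans (Set.ncard_coe_finset T).le
    _ ≤ 2 * N + 1 := by
      refine (Finset.card_insert_le _ _).trans (Nat.succ_le_succ ?_)
      refine Finset.card_image_le.trans ?_
      refine (Finset.card_biUnion_le_card_mul _ _ 2 fun a _ => ?_).trans ?_
      · refine Finset.card_image_le.trans ((Multiset.toFinset_card_le _).trans ?_)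
        exact (card_roots' _).trans natDegree_X_pow_sub_C.le
      · rw [mul_comm 2 N]
        exact Nat.mul_le_mul_right 2
          (((Multiset.toFinset_card_le _).trans (card_roots' g)).trans hN)

theorem three_torsion_small [CharZero K] :
    {P : V.Point | (3 : ℤ) • P = 0}.Finite ∧ {P : V.Point | (3 : ℤ) • P = 0}.ncard < 27 := by
  obtain ⟨h₁, h₂⟩ := ncard_le_of_root V (triPoly_ne_zero V) (triPoly_natDegree V)
    (S := {P : V.Point | (3 : ℤ) • P = 0}) fun x y h hP => root_of_three V hP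
  exact ⟨h₁, by omega⟩

theorem five_torsion_small [CharZero K] :
    {P : V.Point | (5 : ℤ) • P = 0}.Finite ∧ {P : V.Point | (5 : ℤ) • P = 0}.ncard < 125 := by
  obtain ⟨h₁, h₂⟩ := ncard_le_of_root V (quinPoly_ne_zero V) (quinPoly_natDegree V)
    (S := {P : V.Point | (5 : ℤ) • P = 0}) fun x y h hP => root_of_five V hP
  exact ⟨h₁, by omega⟩

omit [DecidableEq K] in
/-- A point with prescribed short coordinates. -/
theorem exists_point [CharZero K] (hΔ : V.Δ ≠ 0) {X₀ Y₀ : K}
    (h : Y₀ ^ 2 = X₀ ^ 3 - 3 * cS V * X₀ - 2 * dS V) :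
    ∃ x y, V.Nonsingular x y ∧ shortX V x = X₀ ∧ shortY V x y = Y₀ := by
  set x : K := (X₀ - 3 * V.b₂) / 36 with hx
  set y : K := (Y₀ / 108 - V.a₁ * x - V.a₃) / 2 with hy
  have e1 : shortX V x = X₀ := by
    rw [hx, shortX]; ring
  have e2 : shortY V x y = Y₀ := by
    rw [hy, shortY]; ring
  refine ⟨x, y, (V.equation_iff_nonsingular_of_Δ_ne_zero hΔ).mp ?_, e1, e2⟩
  rw [← e1, ← e2] at h
  rw [Affine.equation_iff]
  simp only [shortX, shortY, cS, dS, c₄, c₆, b₂, b₄, b₆] at h
  linear_combination (1 / 46656 : K) * h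

/-- Doubling in short coordinates. -/
theorem exists_double [CharZero K] {x y L : K} {h : V.Nonsingular x y} (hY : shortY V x y ≠ 0)
    (hL : 2 * shortY V x y * L = 3 * (shortX V x ^ 2 - cS V)) :
    ∃ (x₂ y₂ : K) (h₂ : V.Nonsingular x₂ y₂),
      Affine.Point.some x y h + Affine.Point.some x y h = Affine.Point.some x₂ y₂ h₂ ∧
      shortX V x₂ = L ^ 2 - 2 * shortX V x ∧
      shortY V x₂ y₂ = -(shortY V x y + L * (shortX V x₂ - shortX V x)) := by
  have hy : y ≠ V.negY x y := by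
    intro e
    apply hY
    rw [Affine.negY] at e
    simp only [shortY]
    linear_combination 108 * e
  have hl : shortL V (V.slope x x y y) = L :=
    mul_left_cancel₀ (mul_ne_zero two_ne_zero hY) ((shortL_tangent V hy).trans hL.symm)
  refine ⟨_, _, _, Affine.Point.add_self_of_Y_ne hy, ?_, ?_⟩
  · rw [shortX_addX, hl]; ring
  · rw [shortY_addY, hl]

theorem exists_three_torsion [IsAlgClosed K] [CharZero K] (hΔ : V.Δ ≠ 0) :
    ∃ P : V.Point, P ≠ 0 ∧ (3 : ℤ) • P = 0 := by
  have hdeg : (triPoly V).degree ≠ 0 := by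
    have : (triPoly V).coeff 4 = 1 := by unfold triPoly; compute_degree!
    have h4 : 4 ≤ (triPoly V).natDegree := le_natDegree_of_ne_zero (by rw [this]; exact one_ne_zero)
    intro h; rw [natDegree_eq_zero_iff_degree_le_zero.mpr h.le] at h4; omega
  obtain ⟨X₀, hX⟩ := IsAlgClosed.exists_root _ hdeg
  simp only [triPoly, IsRoot.def, eval_sub, eval_mul, eval_pow, eval_X, eval_C] at hX
  obtain ⟨Y₀, hY⟩ := IsAlgClosed.exists_pow_nat_eq (X₀ ^ 3 - 3 * cS V * X₀ - 2 * dS V) (n := 2)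
    two_pos
  have hY0 : Y₀ ≠ 0 := by
    rintro rfl
    have h9 : (X₀ ^ 2 - cS V) ^ 2 = 0 := by
      linear_combination (-4 / 3 * X₀) * hY - (1 / 3) * hX
    have hc : cS V = X₀ ^ 2 :=
      (sub_eq_zero.mp (pow_eq_zero_iff (by norm_num) |>.mp h9)).symm
    have hd : dS V = -X₀ ^ 3 := by rw [hc] at hY; linear_combination (1 / 2 : K) * hY
    have := cS_dS_rel V
    rw [hc, hd] at this
    apply hΔ
    linear_combination (-1 / 1259712 : K) * this
  obtain ⟨x, y, h, e1, e2⟩ := exists_point V hΔ hY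
  set L := 3 * (X₀ ^ 2 - cS V) / (2 * Y₀) with hLdef
  obtain ⟨x₂, y₂, h₂, hadd, hx₂, -⟩ := exists_double V (h := h) (L := L)
    (by rw [e2]; exact hY0) (by rw [e1, e2, hLdef]; field_simp)
  have hL2 : L ^ 2 = 3 * X₀ := by
    rw [hLdef]; field_simp
    linear_combination (-4 * X₀) * hY - hX
  have hxx : x₂ = x := shortX_injective V (by rw [hx₂, hL2, e1]; ring)
  refine ⟨Affine.Point.some x y h, Affine.Point.some_ne_zero h, ?_⟩
  set P := Affine.Point.some x y h with hP
  rcases Affine.Y_eq_of_X_eq h₂.1 h.1 hxx with e | e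
  · have : P + P = P := by rw [hadd, hP, Affine.Point.some.injEq]; exact ⟨hxx, e⟩
    exact absurd (add_eq_left.mp this) (Affine.Point.some_ne_zero h)
  · have : P + P = -P := by
      rw [hadd, hP, Affine.Point.neg_some, Affine.Point.some.injEq]; exact ⟨hxx, e⟩
    calc (3 : ℤ) • P = P + P + P := by module
      _ = 0 := by rw [this]; exact neg_add_cancel P

theorem exists_five_torsion [IsAlgClosed K] [CharZero K] (hΔ : V.Δ ≠ 0) (hc : V.c₄ ≠ 0) :
    ∃ P : V.Point, P ≠ 0 ∧ (5 : ℤ) • P = 0 := by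
  have hc' : cS V ≠ 0 := mul_ne_zero (by norm_num) hc
  have he : cS V ^ 3 - dS V ^ 2 ≠ 0 := by
    rw [cS_dS_rel]; exact mul_ne_zero (by norm_num) (mul_ne_zero (by norm_num) hΔ)
  set c := cS V with hcdef
  set d := dS V with hddef
  have hdeg : (C (1728 * c ^ 3) * X ^ 5 * (X ^ 2 - C 11 * X - 1) - C (c ^ 3 - d ^ 2) *
      (X ^ 4 - C 12 * X ^ 3 + C 14 * X ^ 2 + C 12 * X + 1) ^ 3 : K[X]).degree ≠ 0 := by
    set p : K[X] := C (1728 * c ^ 3) * X ^ 5 * (X ^ 2 - C 11 * X - 1) - C (c ^ 3 - d ^ 2) *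
      (X ^ 4 - C 12 * X ^ 3 + C 14 * X ^ 2 + C 12 * X + 1) ^ 3 with hp
    have hcoef : p.coeff 12 = -(c ^ 3 - d ^ 2) := by rw [hp]; compute_degree!
    have h12 : 12 ≤ p.natDegree :=
      le_natDegree_of_ne_zero (by rw [hcoef]; exact neg_ne_zero.mpr he)
    intro h; rw [natDegree_eq_zero_iff_degree_le_zero.mpr h.le] at h12; omega
  obtain ⟨b, hb⟩ := IsAlgClosed.exists_root _ hdeg
  simp only [IsRoot.def, eval_sub, eval_add, eval_mul, eval_pow, eval_X, eval_C, eval_one] at hb
  have hb0 : b ≠ 0 := by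
    rintro rfl
    exact he (by linear_combination -hb)
  set T : K := b ^ 4 - 12 * b ^ 3 + 14 * b ^ 2 + 12 * b + 1 with hT
  have hT0 : T ≠ 0 := by
    intro h0
    rw [h0, zero_pow (by norm_num), mul_zero, sub_zero] at hb
    have hq : b ^ 2 - 11 * b - 1 = 0 := by
      simpa [hc', hb0] using hb
    have h5 : (5 : K) * b ^ 2 = 0 := by
      rw [hT] at h0
      linear_combination h0 - (b ^ 2 - b - 1) * hq
    simp [hb0] at h5
  obtain ⟨w, hw⟩ := IsAlgClosed.exists_pow_nat_eq (144 * c / T) (n := 2) two_pos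
  have hw0 : w ≠ 0 := by
    intro h0
    rw [h0, zero_pow (by norm_num), eq_comm, div_eq_zero_iff] at hw
    simp [hc', hT0] at hw
  have hcw : c = w ^ 2 * T / 144 := by rw [hw]; field_simp
  set C6 : K := -((b ^ 2 + 1) * (b ^ 4 - 18 * b ^ 3 + 74 * b ^ 2 + 18 * b + 1)) with hC6
  have hd2 : d ^ 2 = (w ^ 3 * C6 / 1728) ^ 2 := by
    apply mul_left_cancel₀ (pow_ne_zero 3 hT0)
    rw [hcw, hT] at hb
    rw [hC6, hT]
    linear_combination hb
  obtain ⟨W, hW2, hdW⟩ : ∃ W : K, W ^ 2 = w ^ 2 ∧ d = W ^ 3 * C6 / 1728 := by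
    rcases eq_or_eq_neg_of_sq_eq_sq _ _ hd2 with e | e
    · exact ⟨w, rfl, e⟩
    · exact ⟨-w, by ring, by rw [e]; ring⟩
  rw [← hW2] at hcw
  obtain ⟨u, hu⟩ := IsAlgClosed.exists_pow_nat_eq W (n := 2) two_pos
  have hu0 : u ≠ 0 := by
    rintro rfl
    rw [← hu] at hW2
    exact pow_ne_zero 2 hw0 (by simpa using hW2.symm)
  subst hu
  set X₀ : K := u ^ 2 * (1 - 6 * b + b ^ 2) / 12 with hX₀
  set Y₀ : K := -(b * u ^ 3) / 2 with hY₀
  have hY : Y₀ ^ 2 = X₀ ^ 3 - 3 * c * X₀ - 2 * d := by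
    rw [hX₀, hY₀, hdW, hcw, hC6, hT]; ring
  have hY0 : Y₀ ≠ 0 := by
    rw [hY₀]; exact div_ne_zero (neg_ne_zero.mpr (mul_ne_zero hb0 (pow_ne_zero 3 hu0))) two_ne_zero
  obtain ⟨x, y, h, e1, e2⟩ := exists_point V hΔ hY
  set L : K := u * (1 - b) / 2 with hL
  obtain ⟨x₂, y₂, h₂, hadd, hx₂, hy₂⟩ := exists_double V (h := h) (L := L)
    (by rw [e2]; exact hY0) (by rw [e1, e2, ← hcdef, hX₀, hY₀, hL, hcw, hT]; ring)
  rw [e1, e2] at hy₂
  rw [e1] at hx₂
  have hD : X₀ - shortX V x₂ = -(b * u ^ 2) := by rw [hx₂, hX₀, hL]; ring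
  have hxx : x ≠ x₂ := by
    intro e
    rw [← e, e1, sub_self, eq_comm, neg_eq_zero] at hD
    exact mul_ne_zero hb0 (pow_ne_zero 2 hu0) hD
  set P := Affine.Point.some x y h with hP
  set Q := Affine.Point.some x₂ y₂ h₂ with hQ
  have hM : shortL V (V.slope x x₂ y y₂) = u - L := by
    rw [shortL_chord V hxx, hy₂, e1, e2]
    have hne : shortX V x₂ - X₀ ≠ 0 := by
      rw [← neg_sub, hD, neg_neg]; exact mul_ne_zero hb0 (pow_ne_zero 2 hu0)
    rw [div_eq_iff hne, hx₂, hX₀, hY₀, hL]; ring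
  have hx₃ : V.addX x x₂ (V.slope x x₂ y y₂) = x₂ := shortX_injective V (by
    rw [shortX_addX, hM, e1, hx₂, hX₀, hL]; ring)
  have hPQ : P + Q = Affine.Point.some _ _
      (Affine.nonsingular_add h h₂ fun hxy => hxx hxy.1) := Affine.Point.add_of_X_ne hxx
  refine ⟨P, Affine.Point.some_ne_zero h, ?_⟩
  have h5 : (5 : ℤ) • P = (P + (P + P)) + (P + P) := by module
  rcases Affine.Y_eq_of_X_eq (Affine.nonsingular_add h h₂ fun hxy => hxx hxy.1).1 h₂.1 hx₃ with
    e | e
  · have : P + Q = Q := by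
      rw [hPQ, hQ, Affine.Point.some.injEq]; exact ⟨hx₃, e⟩
    exact absurd (add_eq_right.mp this) (Affine.Point.some_ne_zero h)
  · have : P + Q = -Q := by
      rw [hPQ, hQ, Affine.Point.neg_some, Affine.Point.some.injEq]; exact ⟨hx₃, e⟩
    rw [h5, hadd, this, neg_add_cancel]

end Fermat.Agent.ThreeFive
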