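/-
From Galois stable lines in the 3- and 5-torsion to rational Hauptmodul values.
-/
import Mathlib
import Fermat.Agent.ThreeFive.Torsion
import Fermat.Prelude.Def_FLTPrelim_GaloisRep
import Fermat.Agent.Galois.QbarInstances

set_option autoImplicit false

open WeierstrassCurve WeierstrassCurve.Affine

namespace Fermat.Agent.ThreeFive

local notation "Qbar" => AlgebraicClosure ℚ

/-- Abscissa of a point, with junk value at infinity. -/
noncomputable def xco {K : Type*} [Field K] {V : WeierstrassCurve.Affine K} : V.Point → K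
  | .zero => 0
  | .some x _ _ => x

variable (E : WeierstrassCurve.Affine ℚ)

theorem xco_smul (σ : Qbar ≃ₐ[ℚ] Qbar) (P : (E⁄Qbar).Point) :
    xco (σ • P) = σ (xco P) := by
  cases P with
  | zero =>
    show (0 : Qbar) = σ 0
    rw [map_zero]
  | some x y h => rfl

theorem xco_neg (P : (E⁄Qbar).Point) : xco (-P) = xco P := by
  cases P <;> rfl

/-- A nonzero `p`-torsion point generating a Galois stable line. -/
theorem exists_stable_line {p : ℕ} [Fact p.Prime]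
    (hex : ∃ P : (E⁄Qbar).Point, P ≠ 0 ∧ (p : ℤ) • P = 0)
    (hsmall : {P : (E⁄Qbar).Point | (p : ℤ) • P = 0}.Finite ∧
      {P : (E⁄Qbar).Point | (p : ℤ) • P = 0}.ncard < p ^ 3)
    (hred : ¬ Point.GaloisRepIsIrreducible (K := Qbar) ℚ E p) :
    ∃ P : (E⁄Qbar).Point, P ≠ 0 ∧ (p : ℤ) • P = 0 ∧
      ∀ σ : Qbar ≃ₐ[ℚ] Qbar, ∃ k : ℕ, k < p ∧ σ • P = (k : ℤ) • P := by
  have : NeZero p := ⟨(Fact.out : p.Prime).ne_zero⟩
  have hfin : Finite (Submodule.torsionBy ℤ (E⁄Qbar).Point (p : ℤ)) := by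
    have : Finite {P : (E⁄Qbar).Point | (p : ℤ) • P = 0} := hsmall.1.to_subtype
    exact Finite.of_injective
      (fun P : Submodule.torsionBy ℤ (E⁄Qbar).Point (p : ℤ) =>
        (⟨P.1, (Submodule.mem_torsionBy_iff _ _).mp P.2⟩ :
          {P : (E⁄Qbar).Point | (p : ℤ) • P = 0}))
      fun a b h => Subtype.ext (congrArg (fun z => z.1) h)
  have hcard : Nat.card (Submodule.torsionBy ℤ (E⁄Qbar).Point (p : ℤ)) < p ^ 3 := by
    refine lt_of_eq_of_lt ?_ hsmall.2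
    rw [← Nat.card_coe_set_eq]
    exact Nat.card_congr (Equiv.subtypeEquivRight fun P => Submodule.mem_torsionBy_iff _ _)
  have : Module.Finite (ZMod p) (Submodule.torsionBy ℤ (E⁄Qbar).Point (p : ℤ)) :=
    Module.Finite.of_finite
  have hrank : Module.finrank (ZMod p) (Submodule.torsionBy ℤ (E⁄Qbar).Point (p : ℤ)) ≤ 2 := by
    have h := Module.natCard_eq_pow_finrank (K := ZMod p)
      (V := Submodule.torsionBy ℤ (E⁄Qbar).Point (p : ℤ))
    rw [h, Nat.card_zmod] at hcard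
    have := (Nat.pow_lt_pow_iff_right (Fact.out : p.Prime).one_lt).mp hcard
    omega
  have hnt : Nontrivial (Submodule.torsionBy ℤ (E⁄Qbar).Point (p : ℤ)) := by
    obtain ⟨P, hP0, hP⟩ := hex
    exact ⟨⟨⟨P, (Submodule.mem_torsionBy_iff _ _).mpr hP⟩, 0,
      fun e => hP0 (congrArg Subtype.val e)⟩⟩
  simp only [Point.GaloisRepIsIrreducible, hnt, true_and, not_forall, not_or] at hred
  obtain ⟨N, hN, hbot, htop⟩ := hred
  obtain ⟨P, hPN, hP0⟩ := Submodule.exists_mem_ne_zero_of_ne_bot hbot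
  have hlt : Module.finrank (ZMod p) N <
      Module.finrank (ZMod p) (Submodule.torsionBy ℤ (E⁄Qbar).Point (p : ℤ)) :=
    Submodule.finrank_lt htop
  have hspan : Submodule.span (ZMod p) {P} = N := by
    refine Submodule.eq_of_le_of_finrank_le
      ((Submodule.span_singleton_le_iff_mem _ _).mpr hPN) ?_
    rw [finrank_span_singleton hP0]
    omega
  refine ⟨P.1, fun e => hP0 (Subtype.ext e), (Submodule.mem_torsionBy_iff _ _).mp P.2,
    fun σ => ?_⟩
  have hmem : σ • P ∈ Submodule.span (ZMod p) {P} := by rw [hspan]; exact hN σ P hPN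
  obtain ⟨a, ha⟩ := Submodule.mem_span_singleton.mp hmem
  refine ⟨a.val, a.val_lt, ?_⟩
  have h2 : (a.val : ℕ) • P = σ • P := by
    rw [← ha, ← Nat.cast_smul_eq_nsmul (ZMod p), ZMod.natCast_zmod_val]
  have h3 : σ • P.1 = (σ • P).1 := rfl
  rw [h3, ← h2, Submodule.coe_smul_of_tower, natCast_zsmul]

theorem smul_ne_zero_point {σ : Qbar ≃ₐ[ℚ] Qbar} {P : (E⁄Qbar).Point} (h : P ≠ 0) :
    σ • P ≠ 0 := by
  intro e
  have h2 : σ⁻¹ • (σ • P) = σ⁻¹ • (0 : (E⁄Qbar).Point) := congrArg _ e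
  rw [inv_smul_smul] at h2
  exact h h2

theorem galois_shortX (σ : Qbar ≃ₐ[ℚ] Qbar) (x : Qbar) :
    σ (shortX (E⁄Qbar) x) = shortX (E⁄Qbar) (σ x) := by
  have hb : (E⁄Qbar).b₂ = algebraMap ℚ Qbar E.b₂ := E.map_b₂ _
  simp only [shortX, map_add, map_mul, map_ofNat, hb, AlgEquiv.commutes]

theorem baseChange_eq : (E⁄Qbar) = E.map (algebraMap ℚ Qbar) := rfl

theorem cS_baseChange : cS (E⁄Qbar) = algebraMap ℚ Qbar (cS E) := by
  rw [baseChange_eq, cS, cS, map_c₄, map_mul, map_ofNat]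

theorem dS_baseChange : dS (E⁄Qbar) = algebraMap ℚ Qbar (dS E) := by
  rw [baseChange_eq, dS, dS, map_c₆, map_mul, map_ofNat]

theorem exists_hauptmodul3 (hΔ : E.Δ ≠ 0) (hc : E.c₄ ≠ 0)
    (hred : ¬ Point.GaloisRepIsIrreducible (K := Qbar) ℚ E 3) :
    ∃ t : ℚ, t + 3 ≠ 0 ∧ E.c₄ ^ 3 * t = E.Δ * ((t + 27) * (t + 3) ^ 3) := by
  have hΔK : (E⁄Qbar).Δ ≠ 0 := by
    rw [baseChange_eq, map_Δ]; simpa using hΔ
  have : Fact (Nat.Prime 3) := ⟨by norm_num⟩
  obtain ⟨P, hP0, hP, hgal⟩ := exists_stable_line E (p := 3)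
    (exists_three_torsion (E⁄Qbar) hΔK) (three_torsion_small (E⁄Qbar)) hred
  obtain _ | ⟨x, y, h⟩ := P
  · exact absurd rfl hP0
  have hfix : ∀ σ : Qbar ≃ₐ[ℚ] Qbar, σ x = x := by
    intro σ
    obtain ⟨k, hk, hσ⟩ := hgal σ
    have e := xco_smul E σ (Point.some x y h)
    rw [hσ] at e
    interval_cases k
    · exact absurd (hσ.trans (by simp)) (smul_ne_zero_point E hP0)
    · rw [Nat.cast_one, one_zsmul] at e
      exact e.symm
    · have : ((2 : ℕ) : ℤ) • Point.some x y h = -Point.some x y h := by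
        apply eq_neg_of_add_eq_zero_left
        refine Eq.trans ?_ hP
        push_cast
        module
      rw [this, xco_neg] at e
      exact e.symm
  obtain ⟨q, hq⟩ : shortX (E⁄Qbar) x ∈ Set.range (algebraMap ℚ Qbar) :=
    (InfiniteGalois.mem_range_algebraMap_iff_fixed _).mpr fun σ => by
      rw [galois_shortX, hfix]
  have hquart := data_of_three (E⁄Qbar) (h := h) (by exact_mod_cast hP)
  rw [← hq, cS_baseChange, dS_baseChange] at hquart
  have hquart' : q ^ 4 - 6 * cS E * q ^ 2 - 8 * dS E * q - 3 * cS E ^ 2 = 0 := by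
    apply (algebraMap ℚ Qbar).injective
    simpa using hquart
  have hcS : cS E ≠ 0 := mul_ne_zero (by norm_num) hc
  have he : cS E ^ 3 - dS E ^ 2 ≠ 0 := by
    rw [cS_dS_rel]; exact mul_ne_zero (by norm_num) (mul_ne_zero (by norm_num) hΔ)
  obtain ⟨t, ht, hj⟩ := hauptmodul3 hcS he hquart'
  refine ⟨t, ht, ?_⟩
  rw [cS_dS_rel, cS] at hj
  linear_combination (1 / 1259712 : ℚ) * hj

theorem exists_hauptmodul5 (hΔ : E.Δ ≠ 0) (hc : E.c₄ ≠ 0)
    (hred : ¬ Point.GaloisRepIsIrreducible (K := Qbar) ℚ E 5) :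
    ∃ s : ℚ, E.c₄ ^ 3 * s = E.Δ * (s ^ 2 + 10 * s + 5) ^ 3 := by
  have hΔK : (E⁄Qbar).Δ ≠ 0 := by
    rw [baseChange_eq, map_Δ]; simpa using hΔ
  have hcK : (E⁄Qbar).c₄ ≠ 0 := by
    rw [baseChange_eq, map_c₄]; simpa using hc
  have : Fact (Nat.Prime 5) := ⟨by norm_num⟩
  obtain ⟨P, hP0, hP, hgal⟩ := exists_stable_line E (p := 5)
    (exists_five_torsion (E⁄Qbar) hΔK hcK) (five_torsion_small (E⁄Qbar)) hred
  obtain _ | ⟨x, y, h⟩ := P
  · exact absurd rfl hP0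
  obtain ⟨x₂, y₂, h₂, L, h2P, hY0, hD0, hL, hD, h5⟩ :=
    data_of_five (E⁄Qbar) (h := h) (by exact_mod_cast hP)
  set P := Point.some x y h with hPdef
  have hx1 : xco P = x := rfl
  have hx2 : xco ((2 : ℤ) • P) = x₂ := by rw [h2P]; rfl
  have h3 : (3 : ℤ) • P = -((2 : ℤ) • P) := by
    apply eq_neg_of_add_eq_zero_left
    refine Eq.trans ?_ hP
    push_cast
    module
  have h4 : (4 : ℤ) • P = -P := by
    apply eq_neg_of_add_eq_zero_left
    refine Eq.trans ?_ hP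
    push_cast
    module
  have h6 : (6 : ℤ) • P = P := by
    calc (6 : ℤ) • P = ((5 : ℕ) : ℤ) • P + P := by push_cast; module
      _ = P := by rw [hP, zero_add]
  have h8 : (8 : ℤ) • P = -((2 : ℤ) • P) := by
    calc (8 : ℤ) • P = (6 : ℤ) • P + (2 : ℤ) • P := by module
      _ = (3 : ℤ) • P := by rw [h6]; module
      _ = _ := h3
  have hperm : ∀ σ : Qbar ≃ₐ[ℚ] Qbar, (σ x = x ∧ σ x₂ = x₂) ∨ (σ x = x₂ ∧ σ x₂ = x) := by
    intro σ
    obtain ⟨k, hk, hσ⟩ := hgal σ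
    have hσ2 : σ • ((2 : ℤ) • P) = (2 * k : ℤ) • P := by
      rw [Point.algEquiv_smul_zsmul, hσ, mul_smul]
    have e1 : σ x = xco ((k : ℤ) • P) := by rw [← hσ, xco_smul, hx1]
    have e2 : σ x₂ = xco ((2 * k : ℤ) • P) := by rw [← hσ2, xco_smul, hx2]
    interval_cases k
    · exact absurd (hσ.trans (by simp)) (smul_ne_zero_point E hP0)
    · norm_num [hx1, hx2] at e1 e2
      exact Or.inl ⟨e1, e2⟩
    · norm_num at e1 e2
      rw [hx2] at e1
      rw [h4, xco_neg, hx1] at e2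
      exact Or.inr ⟨e1, e2⟩
    · norm_num at e1 e2
      rw [h3, xco_neg, hx2] at e1
      rw [h6, hx1] at e2
      exact Or.inr ⟨e1, e2⟩
    · norm_num at e1 e2
      rw [h4, xco_neg, hx1] at e1
      rw [h8, xco_neg, hx2] at e2
      exact Or.inl ⟨e1, e2⟩
  set X := shortX (E⁄Qbar) x with hX
  set D := X - shortX (E⁄Qbar) x₂ with hDdef
  obtain ⟨S, hS⟩ : (2 * X - D) ∈ Set.range (algebraMap ℚ Qbar) :=
    (InfiniteGalois.mem_range_algebraMap_iff_fixed _).mpr fun σ => by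
      rw [hDdef, hX]
      simp only [map_sub, map_mul, map_ofNat, galois_shortX]
      rcases hperm σ with ⟨e, e'⟩ | ⟨e, e'⟩ <;> rw [e, e'] <;> ring
  obtain ⟨d2, hd2⟩ : D ^ 2 ∈ Set.range (algebraMap ℚ Qbar) :=
    (InfiniteGalois.mem_range_algebraMap_iff_fixed _).mpr fun σ => by
      rw [hDdef, hX]
      simp only [map_sub, map_pow, galois_shortX]
      rcases hperm σ with ⟨e, e'⟩ | ⟨e, e'⟩ <;> rw [e, e'] <;> ring
  have hkey := hauptmodul5 (short_equation _ h.1) hL hD hY0 hD0 h5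
  rw [← hS, ← hd2, cS_baseChange, dS_baseChange] at hkey
  obtain ⟨s, hs⟩ : ∃ s, s = (3 * S ^ 2 - 12 * cS E - 10 * d2) / d2 := ⟨_, rfl⟩
  have hs' : algebraMap ℚ Qbar s = (3 * algebraMap ℚ Qbar S ^ 2 -
      12 * algebraMap ℚ Qbar (cS E) - 10 * algebraMap ℚ Qbar d2) / algebraMap ℚ Qbar d2 := by
    simp [hs]
  rw [← hs'] at hkey
  have hkey' : 1728 * cS E ^ 3 * s = (cS E ^ 3 - dS E ^ 2) * (s ^ 2 + 10 * s + 5) ^ 3 := by
    apply (algebraMap ℚ Qbar).injective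
    simpa using hkey
  refine ⟨s, ?_⟩
  rw [cS_dS_rel, cS] at hkey'
  linear_combination (1 / 1259712 : ℚ) * hkey'

end Fermat.Agent.ThreeFive
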