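/-
A semistable curve cannot have reducible mod 3 and mod 5 representations.
-/
import Mathlib
import Fermat.Agent.ThreeFive.Core
import Fermat.Agent.ThreeFive.Galois
import Fermat.Prelude.Def_FLTPrelim_ModularRep

set_option autoImplicit false

open WeierstrassCurve

namespace Fermat.Agent.ThreeFive

variable (W : WeierstrassCurve ℤ)

theorem isCoprime_c4_disc (hΔ : W.Δ ≠ 0) (hW : W.IsSemistableModel) :
    IsCoprime W.c₄ W.Δ := by
  rw [Int.isCoprime_iff_gcd_eq_one]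
  by_contra h
  obtain ⟨p, hp, hdvd⟩ := Nat.exists_prime_and_dvd h
  have h4 : (p : ℤ) ∣ W.c₄ := (Int.natCast_dvd_natCast.mpr hdvd).trans (Int.gcd_dvd_left _ _)
  exact hW p hp ((Int.natCast_dvd_natCast.mpr hdvd).trans (Int.gcd_dvd_right _ _)) h4

theorem c4_ne_zero (hΔ : W.Δ ≠ 0) (hW : W.IsSemistableModel) : W.c₄ ≠ 0 := by
  intro h
  have hu := isCoprime_c4_disc W hΔ hW
  rw [h, isCoprime_zero_left, Int.isUnit_iff] at hu
  have e := W.c_relation
  rw [h] at e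
  have h6 : W.c₆.natAbs ^ 2 = 1728 := by
    have := congrArg Int.natAbs (show W.c₆ ^ 2 = -1728 * W.Δ by linear_combination e)
    rcases hu with hu | hu <;> simpa [hu, Int.natAbs_pow] using this
  rcases Nat.lt_or_ge W.c₆.natAbs 42 with h' | h'
  · have : W.c₆.natAbs ^ 2 ≤ 41 ^ 2 := Nat.pow_le_pow_left (by omega) 2
    omega
  · have : 42 ^ 2 ≤ W.c₆.natAbs ^ 2 := Nat.pow_le_pow_left h' 2
    omega

theorem natAbs_cube_of_j {c Δ n q : ℤ} (hco : IsCoprime c Δ) (hnq : IsCoprime n q)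
    (h : c ^ 3 * q = Δ * n) : c.natAbs ^ 3 = n.natAbs := by
  have h1 : c ^ 3 ∣ n := (hco.pow_left (m := 3)).dvd_of_dvd_mul_left ⟨q, h.symm⟩
  have h2 : n ∣ c ^ 3 := hnq.dvd_of_dvd_mul_right ⟨Δ, by rw [h]; ring⟩
  rw [← Int.natAbs_pow]
  exact Nat.dvd_antisymm (Int.natAbs_dvd_natAbs.mpr h1) (Int.natAbs_dvd_natAbs.mpr h2)

theorem not_cube_between {a b x : ℕ} (h1 : a ^ 3 < x) (h2 : x < (a + 1) ^ 3) (hb : b ^ 3 = x) :
    False := by
  rcases Nat.lt_or_ge a b with h | h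
  · have : (a + 1) ^ 3 ≤ b ^ 3 := Nat.pow_le_pow_left h 3
    omega
  · have : b ^ 3 ≤ a ^ 3 := Nat.pow_le_pow_left h 3
    omega

theorem mod_three_or_five (hΔ : W.Δ ≠ 0) (hW : W.IsSemistableModel) :
    W.ModRepIsIrreducible 3 ∨ W.ModRepIsIrreducible 5 := by
  by_contra hne
  rw [not_or] at hne
  set E : WeierstrassCurve.Affine ℚ := W.map (Int.castRingHom ℚ) with hE
  have hEc : E.c₄ = (W.c₄ : ℚ) := W.map_c₄ _
  have hEΔ : E.Δ = (W.Δ : ℚ) := W.map_Δ _
  have hc0 := c4_ne_zero W hΔ hW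
  have hΔE : E.Δ ≠ 0 := by rw [hEΔ]; exact_mod_cast hΔ
  have hcE : E.c₄ ≠ 0 := by rw [hEc]; exact_mod_cast hc0
  obtain ⟨t, ht3, ht⟩ := exists_hauptmodul3 E hΔE hcE hne.1
  obtain ⟨s, hs⟩ := exists_hauptmodul5 E hΔE hcE hne.2
  have hs0 : s ≠ 0 := by
    rintro rfl
    simp [hΔE] at hs
  have heq : (t + 27) * (t + 3) ^ 3 * s = (s ^ 2 + 10 * s + 5) ^ 3 * t := by
    apply mul_left_cancel₀ hΔE
    linear_combination t * hs - s * ht
  have hco := isCoprime_c4_disc W hΔ hW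
  rw [hEc, hEΔ] at hs
  rcases hauptmodul5_values hs0 ht3 heq with rfl | rfl | rfl | rfl
  · have h : W.c₄ ^ 3 * 2 = W.Δ * (-25) := by
      have : (W.c₄ : ℚ) ^ 3 * 2 = (W.Δ : ℚ) * (-25) := by linear_combination (-1 / 5 : ℚ) * hs
      exact_mod_cast this
    exact not_cube_between (a := 2) (by norm_num) (by norm_num)
      (natAbs_cube_of_j hco (Int.isCoprime_iff_gcd_eq_one.mpr (by norm_num)) h)
  · have h : W.c₄ ^ 3 * 8 = W.Δ * (-349938025) := by
      have : (W.c₄ : ℚ) ^ 3 * 8 = (W.Δ : ℚ) * (-349938025) := by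
        linear_combination (-1 / 5 : ℚ) * hs
      exact_mod_cast this
    exact not_cube_between (a := 704) (by norm_num) (by norm_num)
      (natAbs_cube_of_j hco (Int.isCoprime_iff_gcd_eq_one.mpr (by norm_num)) h)
  · have h : W.c₄ ^ 3 * 32 = W.Δ * (-121945) := by
      have : (W.c₄ : ℚ) ^ 3 * 32 = (W.Δ : ℚ) * (-121945) := by
        linear_combination (-64 / 25 : ℚ) * hs
      exact_mod_cast this
    exact not_cube_between (a := 49) (by norm_num) (by norm_num)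
      (natAbs_cube_of_j hco (Int.isCoprime_iff_gcd_eq_one.mpr (by norm_num)) h)
  · have h : W.c₄ ^ 3 * 32768 = W.Δ * 46969655 := by
      have : (W.c₄ : ℚ) ^ 3 * 32768 = (W.Δ : ℚ) * 46969655 := by
        linear_combination (-262144 / 25 : ℚ) * hs
      exact_mod_cast this
    exact not_cube_between (a := 360) (by norm_num) (by norm_num)
      (natAbs_cube_of_j hco (Int.isCoprime_iff_gcd_eq_one.mpr (by norm_num)) h)

end Fermat.Agent.ThreeFive
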